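/-
A finite extension of the inertia field: the orbit of the uniformiser, polynomials in it, and powers
of a Frobenius element.
-/
import Fermat.Agent.GalRep.InertiaBase.Exports
import Fermat.Agent.Galois.Tame

set_option autoImplicit false
set_option linter.unusedSectionVars false
set_option linter.style.haveILetI false

noncomputable section

namespace Fermat.Agent.FlatBound

open IsLocalRing Polynomial
open Fermat.Agent.Galois (GQ)
open Fermat.Agent.NewVec Fermat.Agent.GalRep.InertiaBase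

local notation "ℚb" => AlgebraicClosure ℚ

variable {A : ValuationSubring (AlgebraicClosure ℚ)} {p : ℕ}
  {L : IntermediateField ℚ (AlgebraicClosure ℚ)}

/-! ## Decomposition and inertia elements -/

theorem inertia_mem_decomposition {σ : GQ} (hσ : σ ∈ A.inertiaSubgroupIn ℚ) :
    σ ∈ A.decompositionSubgroup ℚ := by
  obtain ⟨g, -, rfl⟩ := hσ
  exact g.2

theorem conj_mem_inertia {φ σ : GQ} (hφ : φ ∈ A.decompositionSubgroup ℚ)
    (hσ : σ ∈ A.inertiaSubgroupIn ℚ) : φ * σ * φ⁻¹ ∈ A.inertiaSubgroupIn ℚ := by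
  obtain ⟨g, hg, rfl⟩ := hσ
  have hN : (A.inertiaSubgroup ℚ).Normal := MonoidHom.normal_ker _
  exact ⟨(⟨φ, hφ⟩ : A.decompositionSubgroup ℚ) * g * (⟨φ, hφ⟩ : A.decompositionSubgroup ℚ)⁻¹,
    hN.conj_mem g hg _, rfl⟩

theorem apply_mem_inertiaFld {φ : GQ} (hφ : φ ∈ A.decompositionSubgroup ℚ) {x : ℚb}
    (hx : x ∈ inertiaFld A) : φ x ∈ inertiaFld A := by
  refine (mem_inertiaFld A).mpr fun σ hσ => ?_
  have h := (mem_inertiaFld A).mp hx _ (conj_mem_inertia (inv_mem hφ) hσ)
  rw [inv_inv] at h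
  conv_rhs => rw [← h]
  show _ = φ (φ⁻¹ (σ (φ x)))
  exact (φ.apply_symm_apply _).symm

theorem exists_pow_fix_of_finite (φ : GQ) (s : Finset ℚb) : ∃ N : ℕ, 0 < N ∧ ∀ x ∈ s, (φ ^ N) x = x := by
  classical
  induction s using Finset.induction_on with
  | empty => exact ⟨1, one_pos, by simp⟩
  | insert x s hx ih =>
    obtain ⟨N, hN, hs⟩ := ih
    have hfin : (Set.range fun k : ℕ => ((φ ^ N) ^ k) x).Finite := by
      refine ((minpoly ℚ x).rootSet_finite ℚb).subset ?_
      rintro _ ⟨k, rfl⟩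
      rw [Polynomial.mem_rootSet]
      exact ⟨minpoly.ne_zero (Algebra.IsIntegral.isIntegral x), by
        show Polynomial.aeval (((φ ^ N) ^ k : GQ).toAlgHom x) (minpoly ℚ x) = 0
        rw [Polynomial.aeval_algHom_apply, minpoly.aeval, map_zero]⟩
    obtain ⟨i, -, j, -, hne, he⟩ := Set.infinite_univ.exists_lt_map_eq_of_mapsTo
      (f := fun k : ℕ => ((φ ^ N) ^ k) x) (fun k _ => Set.mem_range_self k) hfin
    refine ⟨N * (j - i), Nat.mul_pos hN (Nat.sub_pos_of_lt hne), fun y hy => ?_⟩
    rw [pow_mul]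
    rcases Finset.mem_insert.mp hy with rfl | hy
    · refine ((φ ^ N) ^ i).injective ?_
      rw [← AlgEquiv.mul_apply, ← pow_add, Nat.add_sub_cancel' hne.le]
      exact he.symm
    · have h1 : ∀ k : ℕ, ((φ ^ N) ^ k) y = y := fun k => by
        induction k with
        | zero => rfl
        | succ k ihk => rw [pow_succ, AlgEquiv.mul_apply, hs y hy, ihk]
      exact h1 _

/-- An element acting on residues by a power. -/
theorem residue_eq_pow_of_fixed {σ : GQ} {q : ℕ} (hσ : σ ∈ A.decompositionSubgroup ℚ)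
    (hres : ∀ r : ResidueField A, (⟨σ, hσ⟩ : A.decompositionSubgroup ℚ) • r = r ^ q) {x : A}
    (hx : σ x = (x : ℚb)) : residue A x ^ q = residue A x := by
  rw [← hres, Galois.residue_smul_eq hσ]
  exact congrArg _ (Subtype.ext hx)

theorem residue_smul_pow {φ : GQ} (hφ : A.IsFrobeniusAt φ p) (N : ℕ) :
    ∃ h : φ ^ N ∈ A.decompositionSubgroup ℚ, ∀ r : ResidueField A,
      (⟨φ ^ N, h⟩ : A.decompositionSubgroup ℚ) • r = r ^ p ^ N := by
  obtain ⟨hdec, hfr⟩ := hφ
  refine ⟨pow_mem hdec N, fun r => ?_⟩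
  have hsub : (⟨φ ^ N, pow_mem hdec N⟩ : A.decompositionSubgroup ℚ) = ⟨φ, hdec⟩ ^ N := Subtype.ext rfl
  rw [hsub]
  induction N with
  | zero => simp
  | succ N ih => rw [pow_succ', mul_smul, ih (Subtype.ext rfl), hfr, ← pow_mul, pow_succ]

section Prime

variable [Fact p.Prime] (hA : A.LiesOverPrime p)

include hA in
theorem eq_one_of_root_near {n : ℕ} (hn : ¬ p ∣ n) {ζ : ℚb} (hζ : ζ ^ n = 1)
    (h : A.valuation (ζ - 1) < 1) : ζ = 1 := by
  by_contra hne
  have h1 : (∑ i ∈ Finset.range n, ζ ^ i) * (ζ - 1) = 0 := by rw [geom_sum_mul, hζ, sub_self]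
  rcases mul_eq_zero.mp h1 with h0 | h0
  · have hle : ∀ i : ℕ, A.valuation (ζ ^ i - 1) < 1 := fun i => by
      induction i with
      | zero => simp
      | succ i ih =>
        rw [show ζ ^ (i + 1) - 1 = ζ * (ζ ^ i - 1) + (ζ - 1) by ring]
        refine (A.valuation.map_add _ _).trans_lt (max_lt ?_ h)
        have hz : A.valuation ζ = 1 := by
          have := A.valuation.map_one_add_of_lt h
          rwa [add_sub_cancel] at this
        rw [map_mul, hz, one_mul]
        exact ih
    have h2 : A.valuation (n : ℚb) < 1 := by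
      have h3 : (n : ℚb) = -∑ i ∈ Finset.range n, (ζ ^ i - 1) := by
        rw [Finset.sum_sub_distrib, h0]; simp
      rw [h3, Valuation.map_neg]
      exact A.valuation.map_sum_lt one_ne_zero fun i _ => hle i
    exact absurd (val_natCast_eq_one (Fact.out : p.Prime) hA hn) h2.ne
  · exact hne (sub_eq_zero.mp h0)

variable [FiniteDimensional ℚ L]

/-- The uniformiser of the compositum with the inertia field, as an algebraic number. -/
def unif (L : IntermediateField ℚ (AlgebraicClosure ℚ)) [FiniteDimensional ℚ L] : ℚb :=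
  rVal A L (rUnif (L := L) (Fact.out : p.Prime) hA)

local notation "ξ" => unif (p := p) hA L
local notation "eR" => rIdx (L := L) (Fact.out : Nat.Prime p) hA

theorem unif_ne_zero : ξ ≠ 0 := rUnif_ne _ hA

theorem val_unif_ne_zero : A.valuation ξ ≠ 0 := (_root_.map_ne_zero _).mpr (unif_ne_zero hA)

theorem val_unif_lt_one : A.valuation ξ < 1 := val_rUnif_lt _ hA

theorem unif_mem : ξ ∈ rFld A L := rVal_mem_rFld A L _

theorem val_unif_pow : A.valuation ξ ^ eR = A.valuation (p : ℚb) := val_rUnif_pow _ hA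

theorem idx_pos : 0 < eR := rIdx_pos _ hA

/-- Nonzero terms of a short polynomial in an element with the valuation of the uniformiser have
distinct valuations, so each is bounded by the value. -/
theorem val_term_le {z : ℚb} (hz : A.valuation z = A.valuation ξ) (c : Fin eR → inertiaFld A)
    (i : Fin eR) :
    A.valuation ((c i : ℚb) * z ^ (i : ℕ)) ≤ A.valuation (∑ l, (c l : ℚb) * z ^ (l : ℕ)) := by
  classical
  obtain ⟨m, -, hmax⟩ := Finset.univ.exists_max_image
    (fun l : Fin eR => A.valuation ((c l : ℚb) * z ^ (l : ℕ))) ⟨i, Finset.mem_univ i⟩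
  refine (hmax i (Finset.mem_univ i)).trans ?_
  rcases eq_or_ne (A.valuation ((c m : ℚb) * z ^ (m : ℕ))) 0 with h0 | h0
  · rw [h0]; exact zero_le
  refine le_of_eq (A.valuation.map_sum_eq_of_lt (f := fun l : Fin eR => (c l : ℚb) * z ^ (l : ℕ))
    (Finset.mem_univ m) fun l hl => ?_).symm
  have hlm : l ≠ m := Finset.notMem_singleton.mp (Finset.mem_sdiff.mp hl).2
  refine lt_of_le_of_ne (hmax l (Finset.mem_univ l)) fun heq => ?_
  rw [map_mul, map_mul, map_pow, map_pow, hz] at heq
  rw [map_mul, map_pow, hz] at h0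
  have hcm : c m ≠ 0 := fun h => h0 (by rw [h]; simp)
  have hcl : c l ≠ 0 := fun h => h0 (by rw [← heq, h]; simp)
  obtain ⟨a, ha⟩ := val_inertiaFld (Fact.out : p.Prime) hA hcl
  obtain ⟨b, hb⟩ := val_inertiaFld (Fact.out : p.Prime) hA hcm
  rw [ha, hb, ← val_unif_pow hA (L := L)] at heq
  have hv0 := val_unif_ne_zero hA (L := L)
  rw [← zpow_natCast _ eR, ← zpow_natCast _ (l : ℕ), ← zpow_natCast _ (m : ℕ), ← zpow_mul,
    ← zpow_mul, ← zpow_add₀ hv0, ← zpow_add₀ hv0] at heq
  have h2 := (zpow_right_strictAnti₀ (zero_lt_iff.mpr hv0) (val_unif_lt_one hA)).injective heq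
  refine hlm (Fin.ext ?_)
  have hd : (eR : ℤ) ∣ (l : ℤ) - m := ⟨b - a, by linear_combination h2⟩
  have hlt : (((l : ℤ) - m)).natAbs < eR := by omega
  have := Nat.eq_zero_of_dvd_of_lt (Int.natCast_dvd.mp hd) hlt
  omega

/-- Short polynomials in the uniformiser are faithful. -/
theorem eq_zero_of_sum_unif {c : Fin eR → inertiaFld A}
    (h : ∑ i, (c i : ℚb) * ξ ^ (i : ℕ) = 0) : c = 0 :=
  indep_rUnif (Fact.out : p.Prime) hA c h

/-- Integers of the compositum are short integral polynomials in the uniformiser. -/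
theorem exists_poly {y : ℚb} (hy : y ∈ rFld A L) (hyA : y ∈ A) :
    ∃ c : Fin eR → inertiaFld A, (∀ i, (c i : ℚb) ∈ A) ∧ y = ∑ i, (c i : ℚb) * ξ ^ (i : ℕ) := by
  obtain ⟨c, hc⟩ := exists_rep (L := L) (Fact.out : p.Prime) hA (⟨⟨y, hy⟩, hyA⟩ : rBase A L)
  refine ⟨fun i => (c i : inertiaFld A), fun i => (c i).2, ?_⟩
  have h := congrArg (rVal A L) hc
  rw [map_sum] at h
  refine h.trans (Finset.sum_congr rfl fun i _ => ?_)
  rw [map_mul, map_pow, rVal_algebraMap]
  rfl

/-- Galois elements of the decomposition group fixing `y` and the uniformiser fix the coefficients. -/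
theorem coeff_fixed {σ : GQ} (hσ : σ ∈ A.decompositionSubgroup ℚ) (hξ : σ ξ = ξ) {y : ℚb}
    (hy : σ y = y) {c : Fin eR → inertiaFld A} (hc : y = ∑ i, (c i : ℚb) * ξ ^ (i : ℕ))
    (i : Fin eR) : σ (c i : ℚb) = c i := by
  have h := congrArg σ hc
  rw [hy, map_sum] at h
  simp only [map_mul, map_pow, hξ] at h
  have h2 : ∑ l, ((⟨σ (c l : ℚb), apply_mem_inertiaFld hσ (c l).2⟩ - c l : inertiaFld A) : ℚb) *
      ξ ^ (l : ℕ) = 0 := by
    simp only [AddSubgroupClass.coe_sub, sub_mul, Finset.sum_sub_distrib]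
    rw [← h, ← hc, sub_self]
  have h3 := congrFun (eq_zero_of_sum_unif hA h2) i
  exact congrArg (fun z : inertiaFld A => (z : ℚb)) (sub_eq_zero.mp h3)

/-- The orbit of the uniformiser under inertia. -/
def orbit (L : IntermediateField ℚ (AlgebraicClosure ℚ)) [FiniteDimensional ℚ L] : Finset ℚb :=
  open scoped Classical in
  ((minpoly ℚ (unif (p := p) hA L)).rootSet_finite ℚb).toFinset.filter
    fun η => ∃ σ ∈ A.inertiaSubgroupIn ℚ, σ (unif (p := p) hA L) = η

theorem mem_orbit {η : ℚb} : η ∈ orbit (p := p) hA L ↔ ∃ σ ∈ A.inertiaSubgroupIn ℚ, σ ξ = η := by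
  classical
  rw [orbit, Finset.mem_filter, Set.Finite.mem_toFinset]
  refine ⟨fun h => h.2, fun h => ⟨?_, h⟩⟩
  obtain ⟨σ, -, rfl⟩ := h
  rw [Polynomial.mem_rootSet]
  exact ⟨minpoly.ne_zero (Algebra.IsIntegral.isIntegral _), by
    show Polynomial.aeval (σ.toAlgHom ξ) (minpoly ℚ ξ) = 0
    rw [Polynomial.aeval_algHom_apply, minpoly.aeval, map_zero]⟩

theorem unif_mem_orbit : ξ ∈ orbit (p := p) hA L := (mem_orbit hA).mpr ⟨1, one_mem _, rfl⟩

theorem apply_mem_orbit {σ : GQ} (hσ : σ ∈ A.inertiaSubgroupIn ℚ) {η : ℚb}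
    (hη : η ∈ orbit (p := p) hA L) : σ η ∈ orbit (p := p) hA L := by
  obtain ⟨τ, hτ, rfl⟩ := (mem_orbit hA).mp hη
  exact (mem_orbit hA).mpr ⟨σ * τ, mul_mem hσ hτ, rfl⟩

theorem val_orbit {η : ℚb} (hη : η ∈ orbit (p := p) hA L) : A.valuation η = A.valuation ξ := by
  obtain ⟨τ, hτ, rfl⟩ := (mem_orbit hA).mp hη
  exact Galois.valuation_apply_eq (inertia_mem_decomposition hτ) _

theorem image_orbit {σ : GQ} (hσ : σ ∈ A.inertiaSubgroupIn ℚ) :
    (orbit (p := p) hA L).image σ = orbit (p := p) hA L := by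
  classical
  refine Finset.eq_of_subset_of_card_le ?_ (le_of_eq ?_)
  · intro x hx
    obtain ⟨y, hy, rfl⟩ := Finset.mem_image.mp hx
    exact apply_mem_orbit hA hσ hy
  · rw [Finset.card_image_of_injective _ σ.injective]

/-- The polynomial of the orbit. -/
def orbitPoly (L : IntermediateField ℚ (AlgebraicClosure ℚ)) [FiniteDimensional ℚ L] :
    Polynomial ℚb :=
  ∏ η ∈ orbit (p := p) hA L, (X - C η)

theorem orbitPoly_monic : (orbitPoly (p := p) hA L).Monic :=
  monic_prod_of_monic _ _ fun η _ => monic_X_sub_C η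

theorem natDegree_orbitPoly :
    (orbitPoly (p := p) hA L).natDegree = (orbit (p := p) hA L).card := by
  rw [orbitPoly, natDegree_finsetProd_X_sub_C_eq_card]

theorem coeff_orbitPoly_mem (n : ℕ) :
    (orbitPoly (p := p) hA L).coeff n ∈ inertiaFld A ∧ (orbitPoly (p := p) hA L).coeff n ∈ A := by
  classical
  constructor
  · refine (mem_inertiaFld A).mpr fun σ hσ => ?_
    have h : (orbitPoly (p := p) hA L).map (σ : ℚb →+* ℚb) = orbitPoly (p := p) hA L := by
      rw [orbitPoly, Polynomial.map_prod]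
      simp only [Polynomial.map_sub, map_X, map_C]
      conv_rhs => rw [← image_orbit hA hσ, Finset.prod_image σ.injective.injOn]
      rfl
    have h2 := congrArg (fun P => Polynomial.coeff P n) h
    rw [coeff_map] at h2
    exact h2
  · let g : Polynomial A := ∏ η ∈ (orbit (p := p) hA L).attach,
      (X - C (⟨(η : ℚb), (A.valuation_le_one_iff _).mp
        ((val_orbit hA η.2).le.trans (val_unif_lt_one hA).le)⟩ : A))
    have h : g.map A.subtype = orbitPoly (p := p) hA L := by
      rw [orbitPoly, Polynomial.map_prod, ← Finset.prod_attach (orbit (p := p) hA L)]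
      exact Finset.prod_congr rfl fun η _ => by simp
    rw [← h, coeff_map]
    exact (g.coeff n).2

/-- The orbit polynomial over the unramified base. -/
theorem exists_orbitPoly : ∃ f : Polynomial (wBase A), f.Monic ∧
    f.map ((algebraMap (inertiaFld A) ℚb).comp (wBase A).subtype) = orbitPoly (p := p) hA L := by
  have hl : orbitPoly (p := p) hA L ∈ Polynomial.lifts
      ((algebraMap (inertiaFld A) ℚb).comp (wBase A).subtype) := by
    rw [Polynomial.lifts_iff_coeff_lifts]
    intro n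
    exact ⟨⟨⟨_, (coeff_orbitPoly_mem hA n).1⟩, (coeff_orbitPoly_mem hA n).2⟩, rfl⟩
  obtain ⟨f, hf, -, hfm⟩ := Polynomial.lifts_and_degree_eq_and_monic hl (orbitPoly_monic hA)
  exact ⟨f, hfm, hf⟩

/-- The orbit is as large as the index. -/
theorem card_orbit : (orbit (p := p) hA L).card = eR := by
  classical
  refine le_antisymm ?_ (not_lt.mp fun hlt => ?_)
  · haveI : FiniteDimensional (inertiaFld A) (rFld A L) := finite_rFld A L
    set x : rFld A L := ⟨ξ, unif_mem hA⟩
    have hint : IsIntegral (inertiaFld A) x := .of_finite _ x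
    have hP : minpoly (inertiaFld A) x = minpoly (inertiaFld A) ξ :=
      (minpoly.algHom_eq (rFld A L).val (rFld A L).val.injective x).symm
    have hne : (minpoly (inertiaFld A) ξ).map (algebraMap (inertiaFld A) ℚb) ≠ 0 :=
      (Polynomial.map_ne_zero_iff (algebraMap (inertiaFld A) ℚb).injective).mpr
        (hP ▸ minpoly.ne_zero hint)
    have hsub : orbit (p := p) hA L ⊆
        ((minpoly (inertiaFld A) ξ).map (algebraMap (inertiaFld A) ℚb)).roots.toFinset := by
      intro η hη
      obtain ⟨σ, hσ, rfl⟩ := (mem_orbit hA).mp hη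
      rw [Multiset.mem_toFinset, mem_roots hne, IsRoot.def, eval_map]
      let σ' : ℚb →ₐ[inertiaFld A] ℚb :=
        { (σ : ℚb →+* ℚb) with commutes' := fun c => (mem_inertiaFld A).mp c.2 σ hσ }
      show Polynomial.aeval (σ' ξ) (minpoly (inertiaFld A) ξ) = 0
      rw [Polynomial.aeval_algHom_apply, minpoly.aeval, map_zero]
    refine (Finset.card_le_card hsub).trans ((Multiset.toFinset_card_le _).trans
      ((card_roots' _).trans ?_))
    rw [natDegree_map, ← hP]
    exact (minpoly.natDegree_le x).trans (finrank_rFld_le (Fact.out : p.Prime) hA)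
  · set n := (orbit (p := p) hA L).card
    let c : Fin eR → inertiaFld A := fun i =>
      ⟨(orbitPoly (p := p) hA L).coeff i, (coeff_orbitPoly_mem hA i).1⟩
    have h0 : ∑ i, (c i : ℚb) * ξ ^ (i : ℕ) = 0 := by
      have h1 : (orbitPoly (p := p) hA L).eval ξ = 0 := by
        rw [orbitPoly, eval_prod]
        exact Finset.prod_eq_zero (unif_mem_orbit hA) (by simp)
      rw [eval_eq_sum_range' (n := eR) (by rw [natDegree_orbitPoly]; exact hlt)] at h1
      rw [← h1, Fin.sum_univ_eq_sum_range (fun i => (orbitPoly (p := p) hA L).coeff i * ξ ^ i)]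
    have h2 := congrArg (fun z : inertiaFld A => (z : ℚb))
      (congrFun (eq_zero_of_sum_unif hA h0) ⟨n, hlt⟩)
    simp only [c, Pi.zero_apply, ZeroMemClass.coe_zero] at h2
    have h3 : (orbitPoly (p := p) hA L).coeff (orbitPoly (p := p) hA L).natDegree = 0 := by
      rw [natDegree_orbitPoly]
      exact h2
    exact one_ne_zero ((orbitPoly_monic hA).coeff_natDegree.symm.trans h3)

/-- A relation at the uniformiser holds approximately at nearly conjugate elements. -/
theorem val_eval_le_of_root (Q : Polynomial (wBase A))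
    (hQ : Q.eval₂ ((algebraMap (inertiaFld A) ℚb).comp (wBase A).subtype) ξ = 0) {z : ℚb}
    (hz : A.valuation z ≤ 1) :
    A.valuation (Q.eval₂ ((algebraMap (inertiaFld A) ℚb).comp (wBase A).subtype) z) ≤
      A.valuation ((orbitPoly (p := p) hA L).eval z) := by
  classical
  set ι := (algebraMap (inertiaFld A) ℚb).comp (wBase A).subtype with hι
  obtain ⟨f, hfm, hf⟩ := exists_orbitPoly (L := L) hA
  have hinj : Function.Injective ι :=
    (algebraMap (inertiaFld A) ℚb).injective.comp Subtype.val_injective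
  have hdeg : f.natDegree = eR := by
    rw [← natDegree_map_eq_of_injective hinj, hf, natDegree_orbitPoly, card_orbit]
  have hQR := Polynomial.modByMonic_add_div Q f
  have hfx : f.eval₂ ι ξ = 0 := by
    rw [← eval_map, hf, orbitPoly, eval_prod]
    exact Finset.prod_eq_zero (unif_mem_orbit hA) (by simp)
  have hR : (Q %ₘ f).eval₂ ι ξ = 0 := by
    have h := congrArg (Polynomial.eval₂ ι ξ) hQR
    rw [eval₂_add, eval₂_mul, hfx, zero_mul, add_zero, hQ] at h
    exact h
  have hR0 : Q %ₘ f = 0 := by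
    by_contra hne
    have hlt : (Q %ₘ f).natDegree < eR := hdeg ▸ natDegree_modByMonic_lt Q hfm (fun h => by
      rw [h, natDegree_one] at hdeg
      exact (idx_pos hA (L := L)).ne hdeg)
    rw [eval₂_eq_sum_range' ι hlt, Finset.sum_range] at hR
    have h2 := eq_zero_of_sum_unif hA (c := fun i => ((Q %ₘ f).coeff i : inertiaFld A)) hR
    refine hne (Polynomial.ext fun i => ?_)
    rw [coeff_zero]
    by_cases hi : i < eR
    · exact Subtype.ext (congrFun h2 ⟨i, hi⟩)
    · exact coeff_eq_zero_of_natDegree_lt (hlt.trans_le (not_lt.mp hi))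
  rw [hR0, zero_add] at hQR
  rw [← hQR, eval₂_mul, map_mul, ← hf, ← eval_map]
  refine mul_le_of_le_one_right' ?_
  rw [eval₂_eq_sum_range]
  refine A.valuation.map_sum_le fun i _ => ?_
  rw [map_mul, map_pow]
  exact mul_le_one₀ ((A.valuation_le_one_iff _).mpr ((Q /ₘ f).coeff i).2) zero_le
    (pow_le_one₀ zero_le hz)

end Prime

end Fermat.Agent.FlatBound
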