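/-
A lattice of functions with a Galois equivariant basis, and the field cut out by its values.
-/
import Fermat.Agent.FlatBound.Lift.OfModel
import Fermat.Agent.FlatBound.Lift.Step
import Fermat.Agent.FlatBound.Ram.Field

set_option autoImplicit false
set_option linter.unusedSectionVars false
set_option linter.style.haveILetI false

noncomputable section

namespace Fermat.Agent.FlatBound

open AddMonoidAlgebra Polynomial CoordLat
open Fermat.Agent.Galois (GQ)
open Fermat.Agent.NewVec Fermat.Agent.GalRep.InertiaBase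

local notation "ℚb" => AlgebraicClosure ℚ

/-- A lattice of functions with an equivariant basis spanning it. -/
structure Chart (A : ValuationSubring (AlgebraicClosure ℚ)) (M : Type) [AddCommGroup M]
    [DistribMulAction GQ M] where
  lat : CoordLat A M
  ι : Type
  [fin : Fintype ι]
  B : Module.Basis ι (AlgebraicClosure ℚ) (M → AlgebraicClosure ℚ)
  mem : ∀ i, B i ∈ lat.S
  equi : ∀ (σ : GQ) (i : ι) (x : M), σ (B i x) = B i (σ • x)
  span_le : ∀ f ∈ lat.S, f ∈ Submodule.span A (Set.range B)

attribute [instance] Chart.fin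

theorem nonempty_chart {p : ℕ} [Fact p.Prime] {A : ValuationSubring (AlgebraicClosure ℚ)}
    (hA : A.LiesOverPrime p) {M : Type} [AddCommGroup M] [DistribMulAction GQ M] [Finite M]
    (h : Fermat.Agent.MCurve.Flat.HasFlatModel M p) : Nonempty (Chart A M) := by
  obtain ⟨L, ι, hι, B, h1, h2, h3⟩ := exists_coordLat hA h
  exact ⟨{ lat := L, ι := ι, fin := hι, B := B, mem := h1, equi := h2, span_le := h3 }⟩

namespace Chart

variable {A : ValuationSubring (AlgebraicClosure ℚ)} {M : Type} [AddCommGroup M]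
  [DistribMulAction GQ M] (X : Chart A M)

theorem exists_coeffs {f : M → ℚb} (hf : f ∈ X.lat.S) :
    ∃ a : X.ι → ℚb, (∀ i, a i ∈ A) ∧ f = ∑ i, a i • X.B i := by
  obtain ⟨a, ha⟩ := (Submodule.mem_span_range_iff_exists_fun A).mp (X.span_le f hf)
  exact ⟨fun i => (a i : ℚb), fun i => (a i).2, ha.symm⟩

theorem exists_rat_coeffs {f : M → ℚb} (hf : f ∈ X.lat.S)
    (he : ∀ (σ : GQ) (x : M), σ (f x) = f (σ • x)) :
    ∃ a : X.ι → ℚb, (∀ i, a i ∈ A) ∧ (∀ i (σ : GQ), σ (a i) = a i) ∧ f = ∑ i, a i • X.B i := by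
  obtain ⟨a, haA, ha⟩ := X.exists_coeffs hf
  refine ⟨a, haA, fun i σ => ?_, ha⟩
  have h : ∑ j, (σ (a j) - a j) • X.B j = 0 := by
    funext x
    have h1 := he σ (σ⁻¹ • x)
    rw [smul_inv_smul, ha] at h1
    simp only [Finset.sum_apply, Pi.smul_apply, smul_eq_mul, map_sum, map_mul, X.equi,
      smul_inv_smul] at h1
    simp only [Finset.sum_apply, Pi.smul_apply, smul_eq_mul, sub_mul, Finset.sum_sub_distrib, h1,
      sub_self, Pi.zero_apply]
  exact sub_eq_zero.mp (Fintype.linearIndependent_iff.mp X.B.linearIndependent _ h i)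

theorem pairing_sum (a : X.ι → ℚb) (u : AddMonoidAlgebra ℚb M) :
    pairing (∑ i, a i • X.B i) u = ∑ i, a i * pairing (X.B i) u := by
  induction u using AddMonoidAlgebra.induction_linear with
  | zero => simp
  | add v w hv hw => simp only [map_add, mul_add, Finset.sum_add_distrib, hv, hw]
  | single x r =>
    simp only [pairing_single, Finset.sum_apply, Pi.smul_apply, smul_eq_mul, Finset.mul_sum]
    exact Finset.sum_congr rfl fun i _ => by ring

/-- Bounds at the basis bound the pairings with all integral functions. -/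
theorem inBall_of_basis {γ : A.ValueGroup} {u : AddMonoidAlgebra ℚb M}
    (h : ∀ i, A.valuation (pairing (X.B i) u) ≤ γ) : X.lat.InBall γ u := by
  intro f hf
  obtain ⟨a, ha, rfl⟩ := X.exists_coeffs hf
  rw [X.pairing_sum a u]
  exact A.valuation.map_sum_le fun i _ => by
    rw [map_mul]
    exact (mul_le_of_le_one_left' ((A.valuation_le_one_iff _).mpr (ha i))).trans (h i)

theorem eq_of_basis {x y : M} (h : ∀ i, X.B i x = X.B i y) : x = y := by
  classical
  by_contra hne
  let f : M → ℚb := Pi.single x 1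
  have h1 : f x = f y := by
    rw [← X.B.sum_repr f]
    simp only [Finset.sum_apply, Pi.smul_apply, h]
  change (Pi.single x 1 : M → ℚb) x = (Pi.single x 1 : M → ℚb) y at h1
  rw [Pi.single_eq_same, Pi.single_eq_of_ne (Ne.symm hne)] at h1
  exact one_ne_zero h1

theorem fix_iff {σ : GQ} : (∀ i x, σ (X.B i x) = X.B i x) ↔ ∀ x : M, σ • x = x := by
  refine ⟨fun h x => X.eq_of_basis fun i => ?_, fun h i x => ?_⟩
  · rw [← X.equi, h]
  · rw [X.equi, h]

/-- The field generated by the values. -/
def splitFld : IntermediateField ℚ ℚb :=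
  IntermediateField.adjoin ℚ (Set.range fun z : X.ι × M => X.B z.1 z.2)

instance finite_splitFld [Finite M] : FiniteDimensional ℚ X.splitFld :=
  IntermediateField.finiteDimensional_adjoin fun x _ => Algebra.IsIntegral.isIntegral (R := ℚ) x

theorem value_mem (i : X.ι) (x : M) : X.B i x ∈ X.splitFld :=
  IntermediateField.subset_adjoin _ _ ⟨(i, x), rfl⟩

variable {p : ℕ} [Fact p.Prime] [Finite M] (hA : A.LiesOverPrime p)

local notation "ξ" => unif (p := p) hA X.splitFld
local notation "eR" => rIdx (L := X.splitFld) (Fact.out : Nat.Prime p) hA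

/-- Elements trivial on the module and on the inertia field fix the uniformiser. -/
theorem fix_unif {σ : GQ} (hI : ∀ y ∈ inertiaFld A, σ y = y) (hM : ∀ x : M, σ • x = x) :
    σ ξ = ξ := by
  have hK : ∀ y ∈ X.splitFld, σ y = y := by
    intro y hy
    induction hy using IntermediateField.adjoin_induction with
    | mem y hy =>
      obtain ⟨⟨i, x⟩, rfl⟩ := hy
      exact X.fix_iff.mpr hM i x
    | algebraMap q => exact σ.commutes q
    | add a b _ _ ha hb => rw [map_add, ha, hb]
    | inv a _ ha => rw [map_inv₀, ha]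
    | mul a b _ _ ha hb => rw [map_mul, ha, hb]
  suffices h : ∀ y ∈ rFld A X.splitFld, σ y = y from h _ (unif_mem hA)
  intro y hy
  induction hy using IntermediateField.adjoin_induction with
  | mem y hy => exact hK y hy
  | algebraMap c => exact hI _ c.2
  | add a b _ _ ha hb => rw [map_add, ha, hb]
  | inv a _ ha => rw [map_inv₀, ha]
  | mul a b _ _ ha hb => rw [map_mul, ha, hb]

theorem exists_value_poly (i : X.ι) (x : M) :
    ∃ c : Fin eR → inertiaFld A, (∀ l, (c l : ℚb) ∈ A) ∧
      X.B i x = ∑ l, (c l : ℚb) * ξ ^ (l : ℕ) :=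
  exists_poly hA (mem_rFld_of_mem A _ (X.value_mem i x)) (X.lat.int _ (X.mem i) x)

/-- Inertia elements fixing the uniformiser act trivially on the module. -/
theorem fix_of_unif {σ : GQ} (hI : σ ∈ A.inertiaSubgroupIn ℚ) (h : σ ξ = ξ) (x : M) : σ • x = x := by
  refine X.fix_iff.mp (fun i y => ?_) x
  obtain ⟨c, -, hc⟩ := X.exists_value_poly hA i y
  rw [hc, map_sum]
  exact Finset.sum_congr rfl fun l _ => by
    rw [map_mul, map_pow, h, (mem_inertiaFld A).mp (c l).2 σ hI]

/-- The inertia elements fixing the uniformiser fix its orbit. -/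
theorem fix_orbit {σ : GQ} (hI : σ ∈ A.inertiaSubgroupIn ℚ) (h : σ ξ = ξ) {η : ℚb}
    (hη : η ∈ orbit (p := p) hA X.splitFld) : σ η = η := by
  obtain ⟨g, hg, rfl⟩ := (mem_orbit hA).mp hη
  have h1 : (g⁻¹ * σ * g) ξ = ξ := by
    refine X.fix_unif hA (fun y hy => (mem_inertiaFld A).mp hy _
      (mul_mem (mul_mem (inv_mem hg) hI) hg)) fun x => ?_
    rw [mul_smul, mul_smul, X.fix_of_unif hA hI h, inv_smul_smul]
  calc σ (g ξ) = (g * (g⁻¹ * σ * g)) ξ := by rw [← mul_assoc, mul_inv_cancel_left, AlgEquiv.mul_apply]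
    _ = g ξ := by rw [AlgEquiv.mul_apply, h1]

/-- The group algebra element with given pairings with the basis. -/
def evalPt (φ : X.ι → ℚb) : AddMonoidAlgebra ℚb M :=
  open scoped Classical in
  haveI := Fintype.ofFinite M
  ∑ y : M, single y (X.B.constr ℚb φ (Pi.single y 1))

theorem pairing_evalPt (φ : X.ι → ℚb) (f : M → ℚb) :
    pairing f (X.evalPt φ) = X.B.constr ℚb φ f := by
  classical
  haveI := Fintype.ofFinite M
  conv_rhs => rw [pi_eq_sum_univ' f]
  rw [evalPt, map_sum, map_sum]
  refine Finset.sum_congr (by ext; simp) fun y _ => ?_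
  rw [pairing_single, map_smul, smul_eq_mul, mul_comm]

theorem pairing_evalPt_basis (φ : X.ι → ℚb) (i : X.ι) : pairing (X.B i) (X.evalPt φ) = φ i := by
  rw [pairing_evalPt, Module.Basis.constr_basis]

/-- Relations at the uniformiser make the evaluation at a nearby element an approximate point. -/
theorem isApprox_evalPt (x : M) (P : X.ι → Polynomial (wBase A))
    (hP : ∀ i, (P i).eval₂ ((algebraMap (inertiaFld A) ℚb).comp (wBase A).subtype) ξ = X.B i x)
    {z : ℚb} (hz : A.valuation z ≤ 1)
    (hU : A.valuation ((orbitPoly (p := p) hA X.splitFld).eval z) < 1) :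
    IsApprox X.lat (A.valuation ((orbitPoly (p := p) hA X.splitFld).eval z))
      (X.evalPt fun i => (P i).eval₂ ((algebraMap (inertiaFld A) ℚb).comp (wBase A).subtype) z) := by
  classical
  set ω := (algebraMap (inertiaFld A) ℚb).comp (wBase A).subtype with hω
  set U := A.valuation ((orbitPoly (p := p) hA X.splitFld).eval z) with hUdef
  set φ : X.ι → ℚb := fun i => (P i).eval₂ ω z with hφ
  have hlift : ∀ a : ℚb, a ∈ A → (∀ σ : GQ, σ a = a) → ∃ b : wBase A, ω b = a := fun a ha hσ =>
    ⟨⟨⟨a, (mem_inertiaFld A).mpr fun σ _ => hσ σ⟩, ha⟩, rfl⟩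
  have hrel : ∀ f : M → ℚb, f ∈ X.lat.S → (∀ (σ : GQ) (y : M), σ (f y) = f (σ • y)) →
      ∀ Q : Polynomial (wBase A), Q.eval₂ ω ξ = f x →
        A.valuation (X.B.constr ℚb φ f - Q.eval₂ ω z) ≤ U := by
    intro f hf he Q hQ
    obtain ⟨a, haA, hσ, rfl⟩ := X.exists_rat_coeffs hf he
    choose b hb using fun i => hlift (a i) (haA i) (hσ i)
    have h1 : ∀ y : ℚb, (∑ i, Polynomial.C (b i) * P i - Q).eval₂ ω y =
        ∑ i, a i * (P i).eval₂ ω y - Q.eval₂ ω y := fun y => by
      simp only [eval₂_sub, eval₂_finsetSum, eval₂_mul, eval₂_C, hb]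
    have h0 : (∑ i, Polynomial.C (b i) * P i - Q).eval₂ ω ξ = 0 := by
      rw [h1, hQ, Finset.sum_apply, sub_eq_zero]
      exact Finset.sum_congr rfl fun i _ => by rw [hP i, Pi.smul_apply, smul_eq_mul]
    have h2 := val_eval_le_of_root hA _ h0 hz
    rw [← hω, h1] at h2
    simpa only [map_sum, map_smul, smul_eq_mul, Module.Basis.constr_basis] using h2
  have hPA : ∀ i, A.valuation (φ i) ≤ 1 := fun i => by
    rw [hφ]
    dsimp only
    rw [eval₂_eq_sum_range]
    refine A.valuation.map_sum_le fun l _ => ?_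
    rw [map_mul, map_pow]
    exact mul_le_one₀ ((A.valuation_le_one_iff _).mpr ((P i).coeff l).2) zero_le
      (pow_le_one₀ zero_le hz)
  refine ⟨X.inBall_of_basis fun i => by rw [pairing_evalPt_basis]; exact hPA i, ?_, ?_⟩
  · intro F hF
    change F ∈ Submodule.span A _ at hF
    induction hF using Submodule.span_induction with
    | mem F hF =>
      obtain ⟨f, hf, g, hg, rfl⟩ := hF
      have hpair : pairing (fun w : M × M => f w.1 * g w.2) (defect (X.evalPt φ)) =
          X.B.constr ℚb φ (f * g) - X.B.constr ℚb φ f * X.B.constr ℚb φ g := by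
        rw [defect, map_sub, pairing_box, pairing_push, pairing_evalPt, pairing_evalPt,
          pairing_evalPt]
        congr 2
        funext y
        simp
      obtain ⟨a, ha, rfl⟩ := X.exists_coeffs hf
      obtain ⟨b, hb, rfl⟩ := X.exists_coeffs hg
      rw [hpair]
      simp only [Finset.sum_mul_sum, smul_mul_smul_comm, map_sum, map_smul, smul_eq_mul,
        Module.Basis.constr_basis, ← Finset.sum_sub_distrib]
      refine A.valuation.map_sum_le fun i _ => A.valuation.map_sum_le fun j _ => ?_
      rw [show a i * b j * X.B.constr ℚb φ (X.B i * X.B j) - a i * φ i * (b j * φ j) =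
        a i * b j * (X.B.constr ℚb φ (X.B i * X.B j) - φ i * φ j) by ring, map_mul]
      refine (mul_le_of_le_one_left' ((A.valuation_le_one_iff _).mpr (mul_mem (ha i) (hb j)))).trans ?_
      have h := hrel _ (mul_mem (X.mem i) (X.mem j))
        (fun σ y => by simp only [Pi.mul_apply, map_mul, X.equi]) (P i * P j)
        (by rw [eval₂_mul, hP, hP, Pi.mul_apply])
      rwa [eval₂_mul] at h
    | zero =>
      rw [show pairing (0 : M × M → ℚb) (defect (X.evalPt φ)) = 0 by
        rw [← zero_smul ℚb (0 : M × M → ℚb), pairing_smul_left, zero_mul], map_zero]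
      exact zero_le
    | add F G _ _ hF hG =>
      rw [pairing_add_left]
      exact (A.valuation.map_add _ _).trans (max_le hF hG)
    | smul r F _ hF =>
      rw [show r • F = (r : ℚb) • F from rfl, pairing_smul_left, map_mul]
      exact (mul_le_of_le_one_left' ((A.valuation_le_one_iff _).mpr r.2)).trans hF
  · have h := hrel (1 : M → ℚb) (one_mem _) (fun σ y => by simp) 1 (by simp)
    rw [eval₂_one] at h
    rw [pairing_evalPt]
    exact lt_of_le_of_lt h hU

end Chart

end Fermat.Agent.FlatBound
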