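/-
Fontaine's bound on the ramification of a finite flat group killed by `p`.
-/
import Fermat.Agent.FlatBound.Ram.Chart

set_option autoImplicit false
set_option linter.unusedSectionVars false
set_option linter.style.haveILetI false

noncomputable section

namespace Fermat.Agent.FlatBound

open AddMonoidAlgebra Polynomial CoordLat IsLocalRing
open Fermat.Agent.Galois (GQ)
open Fermat.Agent.NewVec Fermat.Agent.GalRep.InertiaBase

local notation "ℚb" => AlgebraicClosure ℚ

/-- Translates of a product of distinct factors miss a value. -/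
theorem exists_missed_value {k : Type*} [Field k] {p N : ℕ} [Fact p.Prime] [CharP k p] (hN : 0 < N)
    {ι : Type*} (s : Finset ι) (j : ι → k) (hj : ∀ i ∈ s, j i ^ p ^ N = j i) {i₀ i₁ : ι}
    (h₀ : i₀ ∈ s) (h₁ : i₁ ∈ s) (hj₀ : j i₀ = 0) (hj₁ : j i₁ = 1) :
    ∃ t : k, t ≠ 0 ∧ t ^ p ^ N = t ∧ ∀ c : k, c ^ p ^ N = c → ∏ i ∈ s, (c - j i) ≠ t := by
  classical
  have hq : 1 < p ^ N := Nat.one_lt_pow hN.ne' (Fact.out : p.Prime).one_lt
  let F : Finset k := (Polynomial.X ^ p ^ N - Polynomial.X : k[X]).roots.toFinset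
  have hF : ∀ c : k, c ∈ F ↔ c ^ p ^ N = c := fun c => by
    rw [Multiset.mem_toFinset, mem_roots (FiniteField.X_pow_card_sub_X_ne_zero k hq), IsRoot.def]
    simp [sub_eq_zero]
  let P : k → k := fun c => ∏ i ∈ s, (c - j i)
  have hmaps : ∀ c ∈ F, P c ∈ F := fun c hc => by
    rw [hF] at hc ⊢
    simp only [P, ← Finset.prod_pow]
    exact Finset.prod_congr rfl fun i hi => by rw [sub_pow_char_pow, hc, hj i hi]
  have h0F : (0 : k) ∈ F := (hF 0).mpr (zero_pow (by omega))
  have h1F : (1 : k) ∈ F := (hF 1).mpr (one_pow _)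
  have hP0 : P 0 = 0 := Finset.prod_eq_zero h₀ (by rw [hj₀, sub_zero])
  have hP1 : P 1 = 0 := Finset.prod_eq_zero h₁ (by rw [hj₁, sub_self])
  have hlt : (F.image P).card < F.card := by
    refine lt_of_le_of_ne Finset.card_image_le fun h => zero_ne_one (α := k) ?_
    exact Finset.card_image_iff.mp h h0F h1F (hP0.trans hP1.symm)
  obtain ⟨t, htF, ht⟩ : ∃ t ∈ F, t ∉ F.image P := by
    by_contra hc
    push Not at hc
    exact not_le.mpr hlt (Finset.card_le_card hc)
  exact ⟨t, fun h => ht (Finset.mem_image.mpr ⟨0, h0F, hP0.trans h.symm⟩), (hF t).mp htF,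
    fun c hc h => ht (Finset.mem_image.mpr ⟨c, (hF c).mpr hc, h⟩)⟩

namespace Chart

variable {A : ValuationSubring (AlgebraicClosure ℚ)} {M : Type} [AddCommGroup M] [Finite M]
  [DistribMulAction GQ M] (X : Chart A M) {p : ℕ} [Fact p.Prime] (hA : A.LiesOverPrime p)

local notation "ξ" => unif (p := p) hA X.splitFld
local notation "O" => orbit (p := p) hA X.splitFld
local notation "eR" => rIdx (L := X.splitFld) (Fact.out : Nat.Prime p) hA

include hA in
/-- An auxiliary number close to the orbit: elements of the decomposition group fixing it and the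
coefficients fix the module. -/
theorem fix_of_near (hp : ∀ x : M, p • x = 0) {z : ℚb} (hz : A.valuation z = A.valuation ξ)
    {γ : A.ValueGroup} (hγ : Small A p γ) (hγ0 : γ ≠ 0)
    (hU : A.valuation (p : ℚb) * γ = A.valuation ((orbitPoly (p := p) hA X.splitFld).eval z))
    (c : X.ι → M → Fin eR → inertiaFld A) (hcA : ∀ i x l, (c i x l : ℚb) ∈ A)
    (hc : ∀ i x, X.B i x = ∑ l, (c i x l : ℚb) * ξ ^ (l : ℕ)) {h : GQ}
    (hh : h ∈ A.decompositionSubgroup ℚ) (hhz : h z = z)
    (hhc : ∀ i x l, h (c i x l : ℚb) = c i x l) (x : M) : h • x = x := by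
  classical
  set ω := (algebraMap (inertiaFld A) ℚb).comp (wBase A).subtype with hω
  have hz1 : A.valuation z ≤ 1 := hz.le.trans (val_unif_lt_one hA).le
  have hU1 : A.valuation ((orbitPoly (p := p) hA X.splitFld).eval z) < 1 := by
    rw [← hU]
    exact (mul_le_of_le_one_right' (hγ.le_one hA)).trans_lt (val_p_lt_one hA)
  let P : X.ι → M → Polynomial (wBase A) := fun i y =>
    ∑ l : Fin eR, Polynomial.C (⟨c i y l, hcA i y l⟩ : wBase A) * Polynomial.X ^ (l : ℕ)
  have hev : ∀ i y (w : ℚb), (P i y).eval₂ ω w = ∑ l, (c i y l : ℚb) * w ^ (l : ℕ) := fun i y w => by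
    simp only [P, eval₂_finsetSum, eval₂_mul, eval₂_C, eval₂_X_pow]
    rfl
  have hex : ∀ y : M, ∃ y' : M, ∀ i,
      A.valuation ((∑ l, (c i y l : ℚb) * z ^ (l : ℕ)) - X.B i y') ≤ γ := by
    intro y
    have happ := X.isApprox_evalPt hA y (fun i => P i y)
      (fun i => by rw [← hω, hev, ← hc]) hz1 hU1
    rw [← hU] at happ
    obtain ⟨y', hy'⟩ := exists_point hA hp hγ hγ0 happ
    refine ⟨y', fun i => ?_⟩
    have h1 := hy' (X.B i) (X.mem i)
    rwa [map_sub, X.pairing_evalPt_basis, ← hω, hev, pairing_single, one_mul] at h1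
  choose T hT using hex
  have huniq : ∀ a b : M, (∀ i, A.valuation (X.B i a - X.B i b) ≤ γ) → a = b := fun a b hab =>
    point_unique hA hp hγ (L := X.lat) (X.inBall_of_basis fun i => by
      rw [map_sub, pairing_single, pairing_single, one_mul, one_mul]
      exact hab i)
  have hinj : Function.Injective T := by
    intro a b hab
    refine huniq a b fun i => ?_
    have h1 : A.valuation (∑ l, ((c i a l - c i b l : inertiaFld A) : ℚb) * z ^ (l : ℕ)) ≤ γ := by
      simp only [AddSubgroupClass.coe_sub, sub_mul, Finset.sum_sub_distrib]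
      have h2 := hT b i
      rw [← hab] at h2
      rw [← sub_sub_sub_cancel_right _ _ (X.B i (T a))]
      exact (A.valuation.map_sub _ _).trans (max_le (hT a i) h2)
    rw [hc, hc, ← Finset.sum_sub_distrib]
    refine A.valuation.map_sum_le fun l _ => ?_
    rw [← sub_mul, map_mul, map_pow, ← hz, ← map_pow, ← map_mul]
    exact (val_term_le hA hz (fun l => c i a l - c i b l) l).trans h1
  obtain ⟨y, rfl⟩ := Finite.injective_iff_surjective.mp hinj x
  refine huniq _ _ fun i => ?_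
  have h1 := hT y i
  rw [← Galois.valuation_apply_eq hh, map_sub, map_sum, X.equi] at h1
  simp only [map_mul, map_pow, hhz, hhc] at h1
  rw [← sub_sub_sub_cancel_left _ _ (∑ l, (c i y l : ℚb) * z ^ (l : ℕ))]
  exact (A.valuation.map_sub _ _).trans (max_le (hT y i) h1)

include hA in
/-- Fontaine's bound: the different and the deepest break together are at most `p / (p - 1)`. -/
theorem ram_bound (hp : ∀ x : M, p • x = 0) {η₁ : ℚb} (hη₁ : η₁ ∈ O) (hne₁ : η₁ ≠ ξ) :
    A.valuation (p : ℚb) ^ p ≤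
      (A.valuation (η₁ - ξ) * ∏ η ∈ O \ {ξ}, A.valuation (η - ξ)) ^ (p - 1) := by
  classical
  set v := A.valuation with hv
  set ξ₀ := ξ with hξ₀
  obtain ⟨η₀, hη₀', hmin⟩ := (O \ {ξ₀}).exists_min_image (fun η => v (η - ξ₀))
    ⟨η₁, Finset.mem_sdiff.mpr ⟨hη₁, Finset.notMem_singleton.mpr hne₁⟩⟩
  obtain ⟨hη₀, hne₀⟩ : η₀ ∈ O ∧ η₀ ≠ ξ₀ :=
    ⟨(Finset.mem_sdiff.mp hη₀').1, Finset.notMem_singleton.mp (Finset.mem_sdiff.mp hη₀').2⟩
  refine le_trans ?_ (pow_le_pow_left₀ zero_le
    (mul_le_mul' (hmin η₁ (Finset.mem_sdiff.mpr ⟨hη₁, Finset.notMem_singleton.mpr hne₁⟩)) le_rfl) _)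
  by_contra hcon
  rw [not_le] at hcon
  set lam := η₀ - ξ₀ with hlam
  set ω₀ := v lam with hω₀
  have hlam0 : lam ≠ 0 := sub_ne_zero.mpr hne₀
  have hω₀0 : ω₀ ≠ 0 := (_root_.map_ne_zero v).mpr hlam0
  set R := (O).filter fun η => v (η - ξ₀) ≤ ω₀ with hR
  have hξR : ξ₀ ∈ R := Finset.mem_filter.mpr ⟨unif_mem_orbit hA, by simp⟩
  have hη₀R : η₀ ∈ R := Finset.mem_filter.mpr ⟨hη₀, le_rfl⟩
  -- inertia elements realising the orbit
  have hgex : ∀ η : ℚb, ∃ σ : GQ, σ ∈ A.inertiaSubgroupIn ℚ ∧ (η ∈ O → σ ξ₀ = η) ∧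
      (η = ξ₀ → σ = 1) := fun η => by
    by_cases h : η = ξ₀
    · exact ⟨1, one_mem _, fun _ => h.symm, fun _ => rfl⟩
    by_cases h2 : η ∈ O
    · obtain ⟨σ, hσ, hση⟩ := (mem_orbit hA).mp h2
      exact ⟨σ, hσ, fun _ => hση, fun h' => absurd h' h⟩
    · exact ⟨1, one_mem _, fun h' => absurd h' h2, fun _ => rfl⟩
  choose g hgI hgξ hgone using hgex
  have hgD : ∀ η, g η ∈ A.decompositionSubgroup ℚ := fun η => inertia_mem_decomposition (hgI η)
  have hpres : ∀ {σ : GQ}, σ ∈ A.inertiaSubgroupIn ℚ → σ ξ₀ ∈ R → R.image σ = R := by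
    intro σ hσ hσR
    refine Finset.eq_of_subset_of_card_le ?_ (le_of_eq (Finset.card_image_of_injective _ σ.injective).symm)
    intro y hy
    obtain ⟨η, hη, rfl⟩ := Finset.mem_image.mp hy
    obtain ⟨hηO, hηle⟩ := Finset.mem_filter.mp hη
    refine Finset.mem_filter.mpr ⟨apply_mem_orbit hA hσ hηO, ?_⟩
    rw [← sub_add_sub_cancel _ (σ ξ₀) _, ← map_sub]
    refine (v.map_add _ _).trans (max_le ?_ (Finset.mem_filter.mp hσR).2)
    rw [hv, Galois.valuation_apply_eq (inertia_mem_decomposition hσ)]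
    exact hηle
  have hgR : ∀ η ∈ R, g η ξ₀ = η := fun η hη => hgξ η (Finset.mem_filter.mp hη).1
  -- the coefficients
  choose c hcA hc using fun i x => X.exists_value_poly hA i x
  -- the Frobenius power
  obtain ⟨φ, hφ⟩ := Galois.exists_isFrobeniusAt (Fact.out : p.Prime) hA
  haveI := Fintype.ofFinite M
  obtain ⟨N, hN, hfix⟩ := exists_pow_fix_of_finite φ
    (O ∪ Finset.univ.image fun z : X.ι × M => X.B z.1 z.2)
  obtain ⟨hσD, hres⟩ := residue_smul_pow hφ N
  set σ₀ := φ ^ N with hσ₀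
  have hσO : ∀ η ∈ O, σ₀ η = η := fun η hη => hfix η (Finset.mem_union_left _ hη)
  have hσB : ∀ i x, σ₀ (X.B i x) = X.B i x := fun i x => hfix _ (Finset.mem_union_right _
    (Finset.mem_image.mpr ⟨(i, x), Finset.mem_univ _, rfl⟩))
  have hσξ : σ₀ ξ₀ = ξ₀ := hσO _ (unif_mem_orbit hA)
  have hσc : ∀ i x l, σ₀ (c i x l : ℚb) = c i x l := fun i x l =>
    coeff_fixed hA hσD hσξ (hσB i x) (hc i x) l
  have hσg : ∀ η ∈ R, σ₀ (g η lam) = g η lam := fun η hη => by
    rw [hlam, map_sub, map_sub, hgR η hη, hσO _ (Finset.mem_filter.mp hη).1,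
      hσO _ (apply_mem_orbit hA (hgI η) hη₀)]
  have hσlam : σ₀ lam = lam := by rw [hlam, map_sub, hσξ, hσO _ hη₀]
  -- residues
  haveI : CharP (ResidueField A) p := (CharP.charP_iff_prime_eq_zero (Fact.out : p.Prime)).mpr (by
    rw [← map_natCast (residue A), residue_eq_zero_iff, ← ValuationSubring.coe_mem_nonunits_iff]
    simpa [ValuationSubring.LiesOverPrime] using hA)
  have hmemA : ∀ {y : ℚb}, v y ≤ 1 → y ∈ A := fun h => (A.valuation_le_one_iff _).mp h
  have hjA : ∀ η ∈ R, (η - ξ₀) / lam ∈ A := fun η hη => hmemA (by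
    rw [map_div₀, div_le_one₀ (zero_lt_iff.mpr hω₀0)]
    exact (Finset.mem_filter.mp hη).2)
  let j : ℚb → ResidueField A := fun η =>
    if h : (η - ξ₀) / lam ∈ A then residue A ⟨_, h⟩ else 0
  have hjdef : ∀ η (h : (η - ξ₀) / lam ∈ A), j η = residue A ⟨_, h⟩ := fun η h => dif_pos h
  have hjpow : ∀ η ∈ R, j η ^ p ^ N = j η := fun η hη => by
    rw [hjdef η (hjA η hη)]
    refine residue_eq_pow_of_fixed hσD hres (?_ : σ₀ ((η - ξ₀) / lam) = (η - ξ₀) / lam)
    rw [map_div₀, map_sub, hσO _ (Finset.mem_filter.mp hη).1, hσξ, hσlam]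
  obtain ⟨t, ht0, htpow, htmiss⟩ := exists_missed_value hN R j hjpow hξR hη₀R
    (by rw [hjdef _ (hjA _ hξR)]
        convert map_zero (residue A)
        simp)
    (by rw [hjdef _ (hjA _ hη₀R)]
        rw [← map_one (residue A)]
        exact congrArg _ (Subtype.ext (div_self hlam0)))
  have hgv : ∀ η, v (g η lam / lam) = 1 := fun η => by
    rw [map_div₀, hv, Galois.valuation_apply_eq (hgD η), div_self hω₀0]
  let E : ℚb → A := fun η => ⟨g η lam / lam, hmemA (hgv η).le⟩
  have hE0 : residue A (∏ η ∈ R, E η) ≠ 0 := by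
    rw [map_prod, Finset.prod_ne_zero_iff]
    intro η _
    rw [Ne, residue_eq_zero_iff, mem_maximalIdeal, mem_nonunits_iff, not_not,
      A.valuation_eq_one_iff]
    exact hgv η
  have hEpow : residue A (∏ η ∈ R, E η) ^ p ^ N = residue A (∏ η ∈ R, E η) :=
    residue_eq_pow_of_fixed hσD hres (by
      rw [SubmonoidClass.coe_finsetProd, map_prod]
      exact Finset.prod_congr rfl fun η hη => by
        show σ₀ (g η lam / lam) = g η lam / lam
        rw [map_div₀, hσg η hη, hσlam])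
  obtain ⟨rt, ⟨n, hn, hrtn⟩, hrt⟩ := Fermat.Agent.GalRep.Model.exists_root_residue A
    (Fact.out : p.Prime) hA (t / residue A (∏ η ∈ R, E η)) (div_ne_zero ht0 hE0)
  have hrtI : ∀ σ ∈ A.inertiaSubgroupIn ℚ, σ (rt : ℚb) = rt := fun σ hσ =>
    fixed_of_pow_eq_one (Fact.out : p.Prime) hA hn hrtn hσ
  have hrtσ : σ₀ (rt : ℚb) = rt := by
    have h1 : ((⟨σ₀, hσD⟩ : A.decompositionSubgroup ℚ) • rt) = rt := by
      refine GalRep.pow_eq_of_residue_eq (Fact.out : p.Prime) hA hn ?_ (Subtype.ext hrtn) ?_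
      · rw [← smul_pow', show rt ^ n = 1 from Subtype.ext hrtn, smul_one]
      · refine (ResidueField.residue_smul _ _ _).trans ?_
        rw [hres, hrt, div_pow, htpow, hEpow]
    exact congrArg Subtype.val h1
  set w := (rt : ℚb) * ∏ η ∈ R, g η lam with hw
  have hσw : σ₀ w = w := by
    rw [hw, map_mul, hrtσ, map_prod, Finset.prod_congr rfl hσg]
  have hgw : ∀ η ∈ R, g η w = w := by
    intro η hη
    rw [hw, map_mul, hrtI _ (hgI η), map_prod]
    congr 1
    conv_rhs => rw [← hpres (hgI η) ((hgR η hη).symm ▸ hη), Finset.prod_image (g η).injective.injOn]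
    refine Finset.prod_congr rfl fun θ hθ => ?_
    have hmem : g η θ ∈ R := by
      rw [← hpres (hgI η) ((hgR η hη).symm ▸ hη)]
      exact Finset.mem_image_of_mem _ hθ
    have h1 : ((g (g η θ))⁻¹ * g η * g θ) lam = lam := by
      have hI := mul_mem (mul_mem (inv_mem (hgI (g η θ))) (hgI η)) (hgI θ)
      have hfix1 : ((g (g η θ))⁻¹ * g η * g θ) ξ₀ = ξ₀ := by
        rw [AlgEquiv.mul_apply, AlgEquiv.mul_apply, hgR θ hθ]
        conv_lhs => arg 2; rw [← hgR _ hmem]
        exact AlgEquiv.symm_apply_apply _ _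
      rw [hlam, map_sub, hfix1, X.fix_orbit hA hI hfix1 hη₀]
    calc g η (g θ lam) = g (g η θ) (((g (g η θ))⁻¹ * g η * g θ) lam) := by
          rw [AlgEquiv.mul_apply, AlgEquiv.mul_apply]
          exact (AlgEquiv.apply_symm_apply _ _).symm
      _ = g (g η θ) lam := by rw [h1]
  -- the root
  set G : Polynomial ℚb := (∏ η ∈ R, (Polynomial.X - Polynomial.C η)) - Polynomial.C w with hG
  have hdegG : G.natDegree = R.card := by
    rw [hG, natDegree_sub_C, natDegree_finsetProd_X_sub_C_eq_card]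
  have hGne : G ≠ 0 := fun h => by
    rw [h, natDegree_zero] at hdegG
    exact Finset.card_ne_zero_of_mem hξR hdegG.symm
  have hroot : ∀ y, G.IsRoot y ↔ ∏ η ∈ R, (y - η) = w := fun y => by
    rw [IsRoot.def, hG, eval_sub, eval_prod, eval_C, sub_eq_zero]
    simp only [eval_sub, eval_X, eval_C]
  obtain ⟨z, hzG⟩ := IsAlgClosed.exists_root G (fun h => by
    rw [degree_eq_natDegree hGne, hdegG, Nat.cast_eq_zero] at h
    exact Finset.card_ne_zero_of_mem hξR h)
  have hzw := (hroot z).mp hzG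
  have hvw : v (∏ η ∈ R, ((z - η) / lam)) = 1 ∧
      ∏ η ∈ R, ((z - η) / lam) = rt * ∏ η ∈ R, (E η : ℚb) := by
    have h2 : ∏ η ∈ R, ((z - η) / lam) = rt * ∏ η ∈ R, (E η : ℚb) := by
      simp only [E, Finset.prod_div_distrib]
      rw [hzw, hw, mul_div_assoc]
    refine ⟨?_, h2⟩
    rw [h2, map_mul, map_prod, Finset.prod_eq_one (f := fun η => v (E η : ℚb)) fun η _ => hgv η,
      mul_one]
    have h3 : residue A rt ≠ 0 := by rw [hrt]; exact div_ne_zero ht0 hE0
    rwa [Ne, residue_eq_zero_iff, mem_maximalIdeal, mem_nonunits_iff, not_not,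
      A.valuation_eq_one_iff] at h3
  set cz := (z - ξ₀) / lam with hcz
  have hterm : ∀ η, (z - η) / lam = cz - (η - ξ₀) / lam := fun η => by rw [hcz]; ring
  have hczA : v cz ≤ 1 := by
    by_contra hbig
    rw [not_le] at hbig
    have h3 : ∀ η ∈ R, v ((z - η) / lam) = v cz := fun η hη => by
      rw [hterm]
      exact v.map_sub_eq_of_lt_left (((A.valuation_le_one_iff _).mpr (hjA η hη)).trans_lt hbig)
    have h4 := hvw.1
    rw [map_prod, Finset.prod_congr rfl h3, Finset.prod_const] at h4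
    exact (one_lt_pow₀ hbig (Finset.card_ne_zero_of_mem hξR)).ne' h4
  have hone : ∀ η ∈ R, v ((z - η) / lam) = 1 := by
    have hle : ∀ η ∈ R, v ((z - η) / lam) ≤ 1 := fun η hη => by
      rw [hterm]
      exact (v.map_sub _ _).trans (max_le hczA ((A.valuation_le_one_iff _).mpr (hjA η hη)))
    intro η hη
    refine le_antisymm (hle η hη) ?_
    have h4 := hvw.1
    rw [map_prod, ← Finset.mul_prod_erase R _ hη] at h4
    rw [← h4]
    exact mul_le_of_le_one_right' (Finset.prod_le_one' fun θ hθ => hle θ (Finset.mem_of_mem_erase hθ))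
  have hmiss : residue A ⟨cz, hmemA hczA⟩ ^ p ^ N ≠ residue A ⟨cz, hmemA hczA⟩ := by
    intro h
    refine htmiss _ h ?_
    have h2 : ∀ η (hη : η ∈ R), residue A ⟨cz, hmemA hczA⟩ - j η =
        residue A ⟨(z - η) / lam, hmemA (hone η hη).le⟩ := fun η hη => by
      rw [hjdef η (hjA η hη), ← map_sub]
      exact congrArg _ (Subtype.ext (hterm η).symm)
    rw [← Finset.prod_attach, Finset.prod_congr rfl fun (η : {x // x ∈ R}) _ => h2 η.1 η.2, ← map_prod,
      show (∏ η ∈ R.attach, (⟨(z - (η : ℚb)) / lam, hmemA (hone η.1 η.2).le⟩ : A)) =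
          rt * ∏ η ∈ R, E η from
        Subtype.ext (by
          rw [MulMemClass.coe_mul, SubmonoidClass.coe_finsetProd, SubmonoidClass.coe_finsetProd,
            ← hvw.2]
          exact Finset.prod_attach R fun η => (z - η) / lam),
      map_mul, hrt, div_mul_cancel₀ _ hE0]
  have hzξ : v (z - ξ₀) = ω₀ := by
    have := hone ξ₀ hξR
    rwa [map_div₀, div_eq_one_iff_eq hω₀0] at this
  have hvz : v z = v ξ₀ := by
    have hle : ω₀ ≤ v ξ₀ :=
      (v.map_sub _ _).trans (max_le (val_orbit hA hη₀).le le_rfl)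
    rw [show z = (z - ξ₀) + ξ₀ by ring]
    rcases hle.lt_or_eq with hlt | heq
    · exact v.map_add_eq_of_lt_right (by rwa [hzξ])
    · refine le_antisymm ((v.map_add _ _).trans (max_le (hzξ.le.trans heq.le) le_rfl)) (not_lt.mp ?_)
      intro hlt
      refine hmiss ?_
      have hy : ξ₀ / lam ∈ A := hmemA (by rw [map_div₀, ← hω₀, ← heq, div_self hω₀0])
      have h2 : residue A ⟨cz, hmemA hczA⟩ = - residue A ⟨ξ₀ / lam, hy⟩ := by
        rw [eq_neg_iff_add_eq_zero, ← map_add, residue_eq_zero_iff,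
          ← ValuationSubring.coe_mem_nonunits_iff, A.mem_nonunits_iff]
        show v (cz + ξ₀ / lam) < 1
        rw [hcz, ← add_div, map_div₀, div_lt_one₀ (zero_lt_iff.mpr hω₀0)]
        exact hlt.trans_eq heq.symm
      rw [h2, ← map_neg]
      refine residue_eq_pow_of_fixed hσD hres ?_
      show σ₀ (-(ξ₀ / lam)) = -(ξ₀ / lam)
      rw [map_neg, map_div₀, hσξ, hσlam]
  -- the precision
  set U := v ((orbitPoly (p := p) hA X.splitFld).eval z) with hU
  have hUeq : U = ω₀ * ∏ η ∈ O \ {ξ₀}, v (η - ξ₀) := by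
    rw [hU, orbitPoly, eval_prod, map_prod]
    simp only [eval_sub, eval_X, eval_C]
    rw [← Finset.prod_erase_mul _ _ (unif_mem_orbit hA), Finset.erase_eq, mul_comm, ← hξ₀, hzξ]
    congr 1
    refine Finset.prod_congr rfl fun η hη => ?_
    obtain ⟨hηO, hηne⟩ := Finset.mem_sdiff.mp hη
    have hge : ω₀ ≤ v (η - ξ₀) := hmin η hη
    rcases hge.lt_or_eq with hlt | heq
    · rw [show z - η = (z - ξ₀) - (η - ξ₀) by ring]
      exact v.map_sub_eq_of_lt_right (by rwa [hzξ])
    · have h := hone η (Finset.mem_filter.mpr ⟨hηO, heq.ge⟩)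
      rw [map_div₀, div_eq_one_iff_eq hω₀0] at h
      rw [← heq]
      exact h
  have hvp : v (p : ℚb) ≠ 0 := val_p_ne_zero
  have hU0 : U ≠ 0 := by
    rw [hUeq]
    refine mul_ne_zero hω₀0 (Finset.prod_ne_zero_iff.mpr fun η hη => (_root_.map_ne_zero v).mpr
      (sub_ne_zero.mpr (Finset.notMem_singleton.mp (Finset.mem_sdiff.mp hη).2)))
  have hsmall : Small A p (U / v (p : ℚb)) := by
    rw [Small, ← hv, div_pow, div_lt_iff₀ (pow_pos (zero_lt_iff.mpr hvp) _), ← pow_succ',
      Nat.sub_add_cancel (Fact.out : p.Prime).one_le, hUeq]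
    exact hcon
  have key : ∀ {h : GQ}, h ∈ A.decompositionSubgroup ℚ → h z = z →
      (∀ i x l, h (c i x l : ℚb) = c i x l) → ∀ x : M, h • x = x := fun hh hhz hhc =>
    X.fix_of_near hA hp hvz hsmall (div_ne_zero hU0 hvp) (mul_div_cancel₀ U hvp) c hcA hc hh hhz hhc
  have hgc : ∀ η i x l, g η (c i x l : ℚb) = c i x l := fun η i x l =>
    (mem_inertiaFld A).mp (c i x l).2 _ (hgI η)
  have hzroot : ∀ {σ : GQ}, σ w = w → R.image σ = R → G.IsRoot (σ z) := fun {σ} hσw' himg => by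
    rw [hroot]
    conv_lhs => rw [← himg, Finset.prod_image σ.injective.injOn]
    rw [← hσw']
    conv_rhs => rw [← hzw, map_prod]
    simp only [map_sub]
  have hinjR : Set.InjOn (fun η => g η z) R := by
    intro a ha b hb hab
    have hI : (g a)⁻¹ * g b ∈ A.inertiaSubgroupIn ℚ := mul_mem (inv_mem (hgI a)) (hgI b)
    have hz' : ((g a)⁻¹ * g b) z = z := by
      rw [AlgEquiv.mul_apply]
      simp only at hab
      rw [← hab]
      exact AlgEquiv.symm_apply_apply _ _
    have h1 := X.fix_unif hA (fun y hy => (mem_inertiaFld A).mp hy _ hI)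
      (key (inertia_mem_decomposition hI) hz' fun i x l =>
        (mem_inertiaFld A).mp (c i x l).2 _ hI)
    calc a = g a ξ₀ := (hgR a ha).symm
      _ = g a (((g a)⁻¹ * g b) ξ₀) := by rw [h1]
      _ = g b ξ₀ := by rw [AlgEquiv.mul_apply]; exact AlgEquiv.apply_symm_apply _ _
      _ = b := hgR b hb
  have hσimg : R.image σ₀ = R := by
    rw [Finset.image_congr (g := id) fun η hη => hσO η (Finset.mem_filter.mp hη).1, Finset.image_id]
  have hall : G.roots.toFinset = R.image fun η => g η z := by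
    refine (Finset.eq_of_subset_of_card_le ?_ ?_).symm
    · intro y hy
      obtain ⟨η, hη, rfl⟩ := Finset.mem_image.mp hy
      rw [Multiset.mem_toFinset, mem_roots hGne]
      exact hzroot (hgw η hη) (hpres (hgI η) ((hgR η hη).symm ▸ hη))
    · rw [Finset.card_image_of_injOn hinjR, ← hdegG]
      exact (Multiset.toFinset_card_le _).trans (card_roots' G)
  obtain ⟨η, hη, hgz⟩ : ∃ η ∈ R, g η z = σ₀ z := by
    have h : σ₀ z ∈ G.roots.toFinset := by
      rw [Multiset.mem_toFinset, mem_roots hGne]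
      exact hzroot hσw hσimg
    rw [hall] at h
    exact Finset.mem_image.mp h
  have hhD : (g η)⁻¹ * σ₀ ∈ A.decompositionSubgroup ℚ := mul_mem (inv_mem (hgD η)) hσD
  have hfixM : ∀ x : M, ((g η)⁻¹ * σ₀) • x = x := by
    refine key hhD ?_ fun i x l => ?_
    · rw [AlgEquiv.mul_apply, ← hgz]
      exact AlgEquiv.symm_apply_apply _ _
    · rw [AlgEquiv.mul_apply, hσc]
      conv_lhs => arg 2; rw [← hgc η i x l]
      exact AlgEquiv.symm_apply_apply _ _
  have hgM : ∀ x : M, g η • x = x := fun x => by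
    have h1 : σ₀ • x = x := X.fix_iff.mp hσB x
    have h2 := hfixM x
    rwa [mul_smul, h1, inv_smul_eq_iff, eq_comm] at h2
  have hηξ : η = ξ₀ := by
    rw [← hgR η hη]
    exact X.fix_unif hA (fun y hy => (mem_inertiaFld A).mp hy _ (hgI η)) hgM
  rw [hgone η hηξ, AlgEquiv.one_apply] at hgz
  refine hmiss (residue_eq_pow_of_fixed hσD hres ?_)
  show σ₀ cz = cz
  rw [hcz, map_div₀, map_sub, ← hgz, hσξ, hσlam]

end Chart

end Fermat.Agent.FlatBound
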