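/-
Charts of products.
-/
import Fermat.Agent.FlatBound.Ram.Chart

set_option autoImplicit false
set_option linter.unusedSectionVars false
set_option linter.style.haveILetI false

noncomputable section

namespace Fermat.Agent.FlatBound

open CoordLat
open Fermat.Agent.Galois (GQ)

local notation "ℚb" => AlgebraicClosure ℚ

variable {A : ValuationSubring (AlgebraicClosure ℚ)}

theorem Chart.prod {M N : Type} [AddCommGroup M] [AddCommGroup N] [Finite M] [Finite N]
    [DistribMulAction GQ M] [DistribMulAction GQ N] (X : Chart A M) (Y : Chart A N) :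
    Nonempty (Chart A (M × N)) := by
  classical
  haveI := Fintype.ofFinite M
  haveI := Fintype.ofFinite N
  let b : X.ι × Y.ι → (M × N → ℚb) := fun z w => X.B z.1 w.1 * Y.B z.2 w.2
  have hspan : ⊤ ≤ Submodule.span ℚb (Set.range b) := by
    intro f _
    rw [pi_eq_sum_univ' f]
    refine Submodule.sum_mem _ fun w _ => Submodule.smul_mem _ _ ?_
    have hw : (fun j => if w = j then (1 : ℚb) else 0) = ∑ i, ∑ j,
        (X.B.repr (fun x => if w.1 = x then 1 else 0) i *
          Y.B.repr (fun y => if w.2 = y then 1 else 0) j) • b (i, j) := by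
      funext v
      have hx := congrFun (X.B.sum_repr fun x => if w.1 = x then (1 : ℚb) else 0) v.1
      have hy := congrFun (Y.B.sum_repr fun y => if w.2 = y then (1 : ℚb) else 0) v.2
      simp only [Finset.sum_apply, Pi.smul_apply, smul_eq_mul] at hx hy
      simp only [Finset.sum_apply, Pi.smul_apply, smul_eq_mul, b, mul_mul_mul_comm,
        ← Finset.sum_mul_sum, hx, hy]
      by_cases h1 : w.1 = v.1 <;> by_cases h2 : w.2 = v.2 <;> simp [Prod.ext_iff, h1, h2]
    rw [show (Pi.single w (1 : ℚb) : M × N → ℚb) = fun j => if w = j then (1 : ℚb) else 0 from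
      funext fun j => by rw [Pi.single_apply]; exact if_congr eq_comm rfl rfl, hw]
    exact Submodule.sum_mem _ fun i _ => Submodule.sum_mem _ fun j _ =>
      Submodule.smul_mem _ _ (Submodule.subset_span ⟨(i, j), rfl⟩)
  have hcard : Fintype.card (X.ι × Y.ι) = Module.finrank ℚb (M × N → ℚb) := by
    rw [Fintype.card_prod, ← Module.finrank_eq_card_basis X.B, ← Module.finrank_eq_card_basis Y.B,
      Module.finrank_fintype_fun_eq_card, Module.finrank_fintype_fun_eq_card,
      Module.finrank_fintype_fun_eq_card, Fintype.card_prod]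
  let B := basisOfTopLeSpanOfCardEqFinrank b hspan hcard
  have hB : ⇑B = b := coe_basisOfTopLeSpanOfCardEqFinrank b hspan hcard
  refine ⟨{ lat := X.lat.prod Y.lat, ι := X.ι × Y.ι, B := B, mem := ?_, equi := ?_, span_le := ?_ }⟩
  · intro z
    rw [hB]
    exact Submodule.subset_span ⟨X.B z.1, X.mem _, Y.B z.2, Y.mem _, rfl⟩
  · intro σ z w
    simp only [hB, b, map_mul, X.equi, Y.equi, Prod.smul_fst, Prod.smul_snd]
  · intro f hf
    change f ∈ Submodule.span A _ at hf
    refine Submodule.span_le.mpr ?_ hf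
    rintro _ ⟨f₁, hf₁, f₂, hf₂, rfl⟩
    obtain ⟨u, hu, rfl⟩ := X.exists_coeffs hf₁
    obtain ⟨v, hv, rfl⟩ := Y.exists_coeffs hf₂
    have h : (fun w : M × N => (∑ i, u i • X.B i) w.1 * (∑ j, v j • Y.B j) w.2) =
        ∑ i, ∑ j, (⟨u i * v j, mul_mem (hu i) (hv j)⟩ : A) • B (i, j) := by
      funext w
      simp only [hB, b, Finset.sum_apply, Pi.smul_apply, smul_eq_mul, Finset.sum_mul_sum,
        Algebra.smul_def, ValuationSubring.algebraMap_apply]
      exact Finset.sum_congr rfl fun i _ => Finset.sum_congr rfl fun j _ =>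
        mul_mul_mul_comm (u i) (X.B i w.1) (v j) (Y.B j w.2)
    rw [SetLike.mem_coe, h]
    exact sum_mem fun i _ => sum_mem fun j _ =>
      Submodule.smul_mem _ _ (Submodule.subset_span ⟨(i, j), rfl⟩)

end Fermat.Agent.FlatBound
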